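/-
S52, brick (C1) (helper48): Hilbert irreducibility, rational-root version, p-adic proof.
Part 1: formal Hensel lifting modulo `X ^ m` and the approximation of true roots in a local ring.

`F : R[X][X]` is a polynomial in an outer variable `x` whose coefficients are polynomials in an
inner variable `z`; `F.evalEval z x` is its value.
-/
import Mathlib

set_option autoImplicit false

open Polynomial

namespace Fermat.Agent.S52.HIT48

variable {R : Type*} [CommRing R]

/-- Evaluating the outer variable at a polynomial `Q` and then the inner variable at `z` is the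
same as specialising the inner variable first. -/
theorem eval_eval_eq_eval_map (F : R[X][X]) (Q : R[X]) (z : R) :
    (F.eval Q).eval z = (F.map (evalRingHom z)).eval (Q.eval z) := by
  have h := Polynomial.hom_eval₂ F (RingHom.id R[X]) (evalRingHom z) Q
  simp only [RingHom.comp_id, coe_evalRingHom] at h
  rw [eval_map]
  exact h

theorem evalEval_eq_eval_map (F : R[X][X]) (z x : R) :
    F.evalEval z x = (F.map (evalRingHom z)).eval x := by
  rw [evalEval, eval_eval_eq_eval_map, eval_C]

/-- **Formal Hensel lemma**: a simple root `ξ₀` of `F(0, ·)` extends to a polynomial `Q` of degree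
`≤ m` with `F(z, Q(z)) ≡ 0 mod z ^ (m + 1)`. -/
theorem exists_formal_root (F : R[X][X]) (ξ₀ : R)
    (h0 : F.evalEval 0 ξ₀ = 0) (hc : IsUnit ((derivative F).evalEval 0 ξ₀)) (m : ℕ) :
    ∃ Q : R[X], Q.coeff 0 = ξ₀ ∧ Q.natDegree ≤ m ∧ (X : R[X]) ^ (m + 1) ∣ F.eval Q := by
  induction m with
  | zero =>
    refine ⟨C ξ₀, by simp, by simp, ?_⟩
    rw [pow_one, X_dvd_iff, coeff_zero_eq_eval_zero]
    exact h0
  | succ m ih =>
    obtain ⟨Q, hQ0, hQdeg, h, hh⟩ := ih
    obtain ⟨c', hc'⟩ := hc.exists_right_inv
    set δ : R[X] := - (C (c' * h.coeff 0) * X ^ (m + 1)) with hδ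
    refine ⟨Q + δ, ?_, ?_, ?_⟩
    · rw [coeff_add, hQ0, hδ, coeff_neg, coeff_C_mul, coeff_X_pow]
      simp
    · refine (natDegree_add_le _ _).trans (max_le (hQdeg.trans (Nat.le_succ m)) ?_)
      rw [hδ, natDegree_neg]
      exact (natDegree_C_mul_le _ _).trans (natDegree_X_pow_le _)
    · obtain ⟨k, hk⟩ := binomExpansion F Q δ
      rw [hk, hh]
      -- the constant coefficient of the derivative at `Q`
      have hder : ((derivative F).eval Q).coeff 0 = (derivative F).evalEval 0 ξ₀ := by
        rw [coeff_zero_eq_eval_zero, eval_eval_eq_eval_map, evalEval_eq_eval_map,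
          ← coeff_zero_eq_eval_zero, hQ0]
      have hX : (X : R[X]) ∣ h - (derivative F).eval Q * C (c' * h.coeff 0) := by
        rw [X_dvd_iff, coeff_sub, coeff_mul_C, hder, ← mul_assoc, hc', one_mul, sub_self]
      obtain ⟨g, hg⟩ := hX
      refine ⟨g + k * C (c' * h.coeff 0) ^ 2 * X ^ m, ?_⟩
      rw [hδ]
      have e1 : (X : R[X]) ^ (m + 1) * h + (derivative F).eval Q * -(C (c' * h.coeff 0) * X ^ (m + 1))
          = X ^ (m + 1) * (h - (derivative F).eval Q * C (c' * h.coeff 0)) := by ring
      rw [e1, hg]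
      ring

/-- **Approximation of true roots**: in a local ring, a root `ξ` of `F(z, ·)` with `z` a non-unit
which is congruent to the formal root at `0` modulo the maximal ideal agrees with the formal root
`Q(z)` modulo `z ^ m`. -/
theorem dvd_sub_eval_of_formal_root [IsLocalRing R] (F : R[X][X]) (Q : R[X]) (m : ℕ)
    (hQ : (X : R[X]) ^ m ∣ F.eval Q)
    (hc : IsUnit ((derivative F).evalEval 0 (Q.coeff 0)))
    (z ξ : R) (hz : ¬ IsUnit z) (hroot : F.evalEval z ξ = 0)
    (hξ : ¬ IsUnit (ξ - Q.coeff 0)) :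
    z ^ m ∣ ξ - Q.eval z := by
  set f : R[X] := F.map (evalRingHom z) with hf
  -- `f(ξ) = 0`, `f(Q z) = z ^ m * h z`
  obtain ⟨h, hh⟩ := hQ
  have h1 : f.eval ξ = 0 := by rw [hf, ← evalEval_eq_eval_map]; exact hroot
  have h2 : f.eval (Q.eval z) = z ^ m * h.eval z := by
    rw [hf, ← eval_eval_eq_eval_map, hh, eval_mul, eval_pow, eval_X]
  obtain ⟨k, hk⟩ := binomExpansion f (Q.eval z) (ξ - Q.eval z)
  rw [add_sub_cancel, h1, h2] at hk
  -- the bracket is a unit
  have hQz : ¬ IsUnit (Q.eval z - Q.coeff 0) := by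
    obtain ⟨w, hw⟩ := evalSubFactor Q z 0
    rw [← coeff_zero_eq_eval_zero] at hw
    rw [hw, sub_zero]
    intro hu
    exact hz (isUnit_of_mul_isUnit_right hu)
  have hξQ : ¬ IsUnit (ξ - Q.eval z) := by
    have e : ξ - Q.eval z = (ξ - Q.coeff 0) - (Q.eval z - Q.coeff 0) := by ring
    rw [e]
    intro hu
    have := IsLocalRing.nonunits_add hξ (show ¬ IsUnit (-(Q.eval z - Q.coeff 0)) from by
      rwa [IsUnit.neg_iff])
    exact this (by rwa [← sub_eq_add_neg])
  have hder : IsUnit (f.derivative.eval (Q.eval z)) := by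
    -- `f'(Q z) = F'(z, Q z) ≡ F'(0, Q 0)` modulo the maximal ideal
    have e0 : f.derivative.eval (Q.eval z) = ((derivative F).eval Q).eval z := by
      rw [hf, derivative_map, ← eval_eval_eq_eval_map]
    have e00 : (derivative F).evalEval 0 (Q.coeff 0) = ((derivative F).eval Q).eval 0 := by
      rw [eval_eval_eq_eval_map, evalEval_eq_eval_map, ← coeff_zero_eq_eval_zero]
    obtain ⟨w, hw⟩ := evalSubFactor ((derivative F).eval Q) z 0
    rw [sub_zero] at hw
    rw [e0]
    rw [e00] at hc
    by_contra hnu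
    have hd : ¬ IsUnit (((derivative F).eval Q).eval z - ((derivative F).eval Q).eval 0) := by
      rw [hw]
      intro hu
      exact hz (isUnit_of_mul_isUnit_right hu)
    have := IsLocalRing.nonunits_add hnu (show ¬ IsUnit (-(((derivative F).eval Q).eval z -
      ((derivative F).eval Q).eval 0)) from by rwa [IsUnit.neg_iff])
    apply this
    have e : ((derivative F).eval Q).eval z + -(((derivative F).eval Q).eval z -
      ((derivative F).eval Q).eval 0) = ((derivative F).eval Q).eval 0 := by ring
    rw [e]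
    exact hc
  have hbr : IsUnit (f.derivative.eval (Q.eval z) + k * (ξ - Q.eval z)) := by
    by_contra hnu
    have hk' : ¬ IsUnit (-(k * (ξ - Q.eval z))) := by
      rw [IsUnit.neg_iff]
      intro hu
      exact hξQ (isUnit_of_mul_isUnit_right hu)
    have := IsLocalRing.nonunits_add hnu hk'
    apply this
    have e : f.derivative.eval (Q.eval z) + k * (ξ - Q.eval z) + -(k * (ξ - Q.eval z))
      = f.derivative.eval (Q.eval z) := by ring
    rw [e]
    exact hder
  obtain ⟨b, hb⟩ := hbr.exists_left_inv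
  refine ⟨- (b * h.eval z), ?_⟩
  have key : (f.derivative.eval (Q.eval z) + k * (ξ - Q.eval z)) * (ξ - Q.eval z)
      = - (z ^ m * h.eval z) := by
    linear_combination -hk
  calc ξ - Q.eval z = b * ((f.derivative.eval (Q.eval z) + k * (ξ - Q.eval z)) * (ξ - Q.eval z)) := by
        rw [← mul_assoc, hb, one_mul]
    _ = z ^ m * -(b * h.eval z) := by rw [key]; ring

end Fermat.Agent.S52.HIT48
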