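/-
S52, brick (C1) (helper48): Hilbert irreducibility, rational-root version, p-adic proof.
Part 2: the integral form of Lagrange interpolation on integer nodes.

For a finite set `S₀` of integer nodes, `lagL S₀ * q(k) = ∑ i ∈ S₀, q(i) * lagCoef S₀ i k` for every
polynomial `q` of degree `< #S₀` over a field of characteristic zero, with INTEGER weights.
-/
import Mathlib

set_option autoImplicit false

open Polynomial Finset

namespace Fermat.Agent.S52.HIT48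

/-- `∏_{j ∈ S₀, j ≠ i} (i - j)`. -/
def lagW (S₀ : Finset ℤ) (i : ℤ) : ℤ := ∏ j ∈ S₀.erase i, (i - j)

/-- the common denominator `∏_{i ∈ S₀} lagW S₀ i`. -/
def lagL (S₀ : Finset ℤ) : ℤ := ∏ i ∈ S₀, lagW S₀ i

/-- the integer weight of the node `i` at the point `k`. -/
def lagCoef (S₀ : Finset ℤ) (i k : ℤ) : ℤ :=
  (∏ i' ∈ S₀.erase i, lagW S₀ i') * ∏ j ∈ S₀.erase i, (k - j)

/-- the interpolation defect of the value function `x` at the point `k`. -/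
def lagE (S₀ : Finset ℤ) (x : ℤ → ℤ) (k : ℤ) : ℤ :=
  lagL S₀ * x k - ∑ i ∈ S₀, x i * lagCoef S₀ i k

theorem lagW_ne_zero (S₀ : Finset ℤ) (i : ℤ) : lagW S₀ i ≠ 0 := by
  rw [lagW, prod_ne_zero_iff]
  intro j hj
  exact sub_ne_zero.mpr (ne_of_mem_erase hj).symm

theorem lagL_ne_zero (S₀ : Finset ℤ) : lagL S₀ ≠ 0 := by
  rw [lagL, prod_ne_zero_iff]
  intro i _
  exact lagW_ne_zero S₀ i

theorem lagL_eq (S₀ : Finset ℤ) {i : ℤ} (hi : i ∈ S₀) :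
    lagL S₀ = lagW S₀ i * ∏ i' ∈ S₀.erase i, lagW S₀ i' := by
  rw [lagL, ← mul_prod_erase S₀ _ hi]

section Field

variable {F : Type*} [Field F] [CharZero F]

theorem injOn_intCast (S₀ : Finset ℤ) : Set.InjOn (fun i : ℤ => (i : F)) S₀ :=
  fun _ _ _ _ h => Int.cast_injective h

/-- **Integral Lagrange identity.** -/
theorem lagL_mul_eval (S₀ : Finset ℤ) (q : F[X]) (hq : q.degree < #S₀) (k : ℤ) :
    (lagL S₀ : F) * q.eval (k : F) = ∑ i ∈ S₀, q.eval (i : F) * (lagCoef S₀ i k : F) := by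
  have hinj := injOn_intCast (F := F) S₀
  have hq' := Lagrange.eq_interpolate hinj hq
  conv_lhs => rw [hq']
  rw [Lagrange.interpolate_apply, eval_finsetSum, mul_sum]
  refine sum_congr rfl fun i hi => ?_
  rw [eval_mul, eval_C, Lagrange.basis, eval_prod]
  have hb : ∀ j ∈ S₀.erase i, eval (k : F) (Lagrange.basisDivisor (i : F) (j : F))
      = ((i - j : ℤ) : F)⁻¹ * ((k - j : ℤ) : F) := by
    intro j _
    rw [Lagrange.basisDivisor, eval_mul, eval_C, eval_sub, eval_X, eval_C]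
    push_cast
    ring
  rw [prod_congr rfl hb, prod_mul_distrib, prod_inv_distrib]
  rw [lagL_eq S₀ hi, lagCoef]
  have hW : ((lagW S₀ i : ℤ) : F) = ∏ j ∈ S₀.erase i, ((i - j : ℤ) : F) := by
    rw [lagW]; push_cast; rfl
  have hW0 : ((lagW S₀ i : ℤ) : F) ≠ 0 := by exact_mod_cast lagW_ne_zero S₀ i
  push_cast
  push_cast at hW
  rw [← hW]
  field_simp

end Field

/-- If all interpolation defects vanish on `S`, the values are interpolated by a rational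
polynomial of degree `< #S₀`. -/
theorem exists_poly_of_lagE_eq_zero (S₀ S : Finset ℤ) (x : ℤ → ℤ)
    (hE : ∀ k ∈ S, lagE S₀ x k = 0) :
    ∃ P : ℚ[X], P.degree < #S₀ ∧ ∀ k ∈ S, P.eval (k : ℚ) = x k := by
  have hinj := injOn_intCast (F := ℚ) S₀
  refine ⟨Lagrange.interpolate S₀ (fun i : ℤ => (i : ℚ)) (fun i => (x i : ℚ)),
    Lagrange.degree_interpolate_lt _ hinj, fun k hk => ?_⟩
  set P := Lagrange.interpolate S₀ (fun i : ℤ => (i : ℚ)) (fun i => (x i : ℚ)) with hP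
  have h1 := lagL_mul_eval (F := ℚ) S₀ P (Lagrange.degree_interpolate_lt _ hinj) k
  have h2 : ∀ i ∈ S₀, P.eval (i : ℚ) = x i := fun i hi =>
    Lagrange.eval_interpolate_at_node (fun i => (x i : ℚ)) hinj hi
  rw [sum_congr rfl fun i hi => by rw [h2 i hi]] at h1
  have h3 : ((lagE S₀ x k : ℤ) : ℚ) = 0 := by rw [hE k hk]; simp
  rw [lagE] at h3
  push_cast at h3
  have hL : ((lagL S₀ : ℤ) : ℚ) ≠ 0 := by exact_mod_cast lagL_ne_zero S₀
  have : (lagL S₀ : ℚ) * (P.eval (k : ℚ) - x k) = 0 := by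
    rw [mul_sub, h1]; linarith
  rcases mul_eq_zero.mp this with h | h
  · exact absurd h hL
  · linarith

/-- `lagE` is additive and kills the values of polynomials of small degree (over a field). -/
theorem lagE_cast_eq {F : Type*} [Field F] [CharZero F] (S₀ : Finset ℤ) (x : ℤ → ℤ) (k : ℤ)
    (q : F[X]) (hq : q.degree < #S₀) :
    ((lagE S₀ x k : ℤ) : F) = (lagL S₀ : F) * ((x k : F) - q.eval (k : F))
      - ∑ i ∈ S₀, ((x i : F) - q.eval (i : F)) * (lagCoef S₀ i k : F) := by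
  rw [lagE]
  push_cast
  rw [mul_sub, lagL_mul_eval S₀ q hq k]
  simp only [sub_mul, sum_sub_distrib]
  ring

/-! ### bounds -/

theorem abs_lagW_le (S₀ : Finset ℤ) (W : ℕ) (hS : ∀ j ∈ S₀, 0 ≤ j ∧ j ≤ W) {i : ℤ} (hi : i ∈ S₀) :
    |lagW S₀ i| ≤ (W : ℤ) ^ (#S₀ - 1) := by
  rw [lagW, abs_prod, ← card_erase_of_mem hi, ← prod_const]
  refine prod_le_prod (fun _ _ => abs_nonneg _) fun j hj => ?_
  have hj' := hS j (mem_of_mem_erase hj)
  have hi' := hS i hi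
  rw [abs_le]; constructor <;> linarith

theorem abs_lagL_le (S₀ : Finset ℤ) (W : ℕ) (hS : ∀ j ∈ S₀, 0 ≤ j ∧ j ≤ W) :
    |lagL S₀| ≤ (W : ℤ) ^ (#S₀ * (#S₀ - 1)) := by
  rw [lagL, abs_prod, mul_comm, pow_mul, ← prod_const]
  exact prod_le_prod (fun _ _ => abs_nonneg _) fun i hi => abs_lagW_le S₀ W hS hi

theorem abs_lagCoef_le (S₀ : Finset ℤ) (W : ℕ) (hS : ∀ j ∈ S₀, 0 ≤ j ∧ j ≤ W) {i k : ℤ}
    (hi : i ∈ S₀) (hk : 0 ≤ k ∧ k ≤ W) :
    |lagCoef S₀ i k| ≤ (W : ℤ) ^ (#S₀ * (#S₀ - 1)) := by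
  rw [lagCoef, abs_mul, abs_prod, abs_prod]
  have h1 : ∏ i' ∈ S₀.erase i, |lagW S₀ i'| ≤ ((W : ℤ) ^ (#S₀ - 1)) ^ (#S₀ - 1) := by
    have h0 : ∏ i' ∈ S₀.erase i, |lagW S₀ i'| ≤ ∏ _i' ∈ S₀.erase i, (W : ℤ) ^ (#S₀ - 1) :=
      prod_le_prod (fun _ _ => abs_nonneg _) fun i' hi' =>
        abs_lagW_le S₀ W hS (mem_of_mem_erase hi')
    rwa [prod_const, card_erase_of_mem hi] at h0
  have h2 : ∏ j ∈ S₀.erase i, |k - j| ≤ (W : ℤ) ^ (#S₀ - 1) := by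
    rw [← card_erase_of_mem hi, ← prod_const]
    refine prod_le_prod (fun _ _ => abs_nonneg _) fun j hj => ?_
    have hj' := hS j (mem_of_mem_erase hj)
    rw [abs_le]; constructor <;> linarith
  have hcard : 0 < #S₀ := card_pos.mpr ⟨i, hi⟩
  calc (∏ i' ∈ S₀.erase i, |lagW S₀ i'|) * ∏ j ∈ S₀.erase i, |k - j|
      ≤ ((W : ℤ) ^ (#S₀ - 1)) ^ (#S₀ - 1) * (W : ℤ) ^ (#S₀ - 1) :=
        mul_le_mul h1 h2 (prod_nonneg fun _ _ => abs_nonneg _) (by positivity)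
    _ = (W : ℤ) ^ (#S₀ * (#S₀ - 1)) := by
        rw [← pow_mul, ← pow_add]
        congr 1
        obtain ⟨n, hn⟩ : ∃ n, #S₀ = n + 1 := ⟨#S₀ - 1, by omega⟩
        rw [hn]; simp; ring

theorem abs_lagE_le (S₀ : Finset ℤ) (W : ℕ) (hS : ∀ j ∈ S₀, 0 ≤ j ∧ j ≤ W) (x : ℤ → ℤ) (B₀ : ℤ)
    {k : ℤ} (hk : 0 ≤ k ∧ k ≤ W) (hxk : |x k| ≤ B₀) (hx : ∀ i ∈ S₀, |x i| ≤ B₀) :
    |lagE S₀ x k| ≤ (W : ℤ) ^ (#S₀ * (#S₀ - 1)) * B₀ * (#S₀ + 1) := by
  have hB₀ : 0 ≤ B₀ := (abs_nonneg _).trans hxk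
  have hWp : (0 : ℤ) ≤ (W : ℤ) ^ (#S₀ * (#S₀ - 1)) := by positivity
  rw [lagE]
  refine (abs_sub _ _).trans ?_
  have h1 : |lagL S₀ * x k| ≤ (W : ℤ) ^ (#S₀ * (#S₀ - 1)) * B₀ := by
    rw [abs_mul]
    exact mul_le_mul (abs_lagL_le S₀ W hS) hxk (abs_nonneg _) hWp
  have h2 : |∑ i ∈ S₀, x i * lagCoef S₀ i k| ≤ #S₀ * ((W : ℤ) ^ (#S₀ * (#S₀ - 1)) * B₀) := by
    refine (abs_sum_le_sum_abs _ _).trans ?_
    rw [← nsmul_eq_mul]
    refine sum_le_card_nsmul _ _ _ fun i hi => ?_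
    rw [abs_mul, mul_comm]
    exact mul_le_mul (abs_lagCoef_le S₀ W hS hi hk) (hx i hi) (abs_nonneg _) hWp
  calc |lagL S₀ * x k| + |∑ i ∈ S₀, x i * lagCoef S₀ i k|
      ≤ (W : ℤ) ^ (#S₀ * (#S₀ - 1)) * B₀ + #S₀ * ((W : ℤ) ^ (#S₀ * (#S₀ - 1)) * B₀) :=
        add_le_add h1 h2
    _ = (W : ℤ) ^ (#S₀ * (#S₀ - 1)) * B₀ * (#S₀ + 1) := by ring

end Fermat.Agent.S52.HIT48
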