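/-
S52, brick (C1) (helper48): Hilbert irreducibility, rational-root version, p-adic proof.
Part 3: the core lemma.  Integer roots `x u` of `G(t₁ + c u, ·)`, `u ∈ S ⊆ [0, W]`, all in the same
simple residue class modulo `p`, with `p ^ r ∣ c` and `p ^ (r m)` larger than an explicit bound, are
interpolated by a rational polynomial of degree `< m`.
-/
import Mathlib
import Fermat.Agent.S52.HIT48.FormalHensel
import Fermat.Agent.S52.HIT48.Interp

set_option autoImplicit false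

open Polynomial Finset

namespace Fermat.Agent.S52.HIT48

section Shift

variable {R : Type*} [CommRing R]

theorem evalEval_map_compRingHom (G : R[X][X]) (q : R[X]) (z x : R) :
    (G.map (compRingHom q)).evalEval z x = G.evalEval (q.eval z) x := by
  rw [evalEval_eq_eval_map, evalEval_eq_eval_map, Polynomial.map_map]
  have e : (evalRingHom z).comp (compRingHom q) = evalRingHom (q.eval z) := by
    refine Polynomial.ringHom_ext (fun a => by simp) (by simp)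
  rw [e]

end Shift

variable (p : ℕ) [hp : Fact p.Prime]

/-- `G(t_c + z, x)` as a bivariate polynomial over `ℤ_[p]`. -/
noncomputable def shiftP (G : ℤ[X][X]) (tc : ℤ) : ℤ_[p][X][X] :=
  (G.map (compRingHom (C tc + X))).map (mapRingHom (Int.castRingHom ℤ_[p]))

theorem shiftP_evalEval (G : ℤ[X][X]) (tc z x : ℤ) :
    (shiftP p G tc).evalEval (z : ℤ_[p]) (x : ℤ_[p]) = ((G.evalEval (tc + z) x : ℤ) : ℤ_[p]) := by
  have h := map_mapRingHom_evalEval (Int.castRingHom ℤ_[p]) (G.map (compRingHom (C tc + X))) z x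
  simp only [Int.coe_castRingHom] at h
  rw [shiftP, h, evalEval_map_compRingHom]
  simp

theorem derivative_shiftP (G : ℤ[X][X]) (tc : ℤ) :
    derivative (shiftP p G tc) = shiftP p (derivative G) tc := by
  rw [shiftP, shiftP, derivative_map, derivative_map]

theorem isUnit_intCast_iff (k : ℤ) : IsUnit (k : ℤ_[p]) ↔ ¬ (p : ℤ) ∣ k := by
  rw [← PadicInt.norm_int_lt_one_iff_dvd, ← PadicInt.not_isUnit_iff, not_not]

/-- **Core lemma.** -/
theorem core (G : ℤ[X][X]) (t₁ c : ℤ) (r m : ℕ) (hm : 1 ≤ m) (hr : 1 ≤ r)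
    (hc : (p : ℤ) ^ r ∣ c)
    (hsimple : ∀ t x : ℤ, t ≡ t₁ [ZMOD p] → (p : ℤ) ∣ G.evalEval t x →
      ¬ (p : ℤ) ∣ (derivative G).evalEval t x)
    (S : Finset ℤ) (W : ℕ) (hS : ∀ u ∈ S, 0 ≤ u ∧ u ≤ W) (hcard : m ≤ #S)
    (x : ℤ → ℤ) (hx : ∀ u ∈ S, G.evalEval (t₁ + c * u) (x u) = 0)
    (hbranch : ∀ u ∈ S, ∀ u' ∈ S, x u ≡ x u' [ZMOD p])
    (B₀ : ℤ) (hB : ∀ u ∈ S, |x u| ≤ B₀)
    (hbig : (W : ℤ) ^ (m * (m - 1)) * B₀ * (m + 1) < (p : ℤ) ^ (r * m)) :
    ∃ P : ℚ[X], P.degree < m ∧ ∀ u ∈ S, P.eval (u : ℚ) = x u := by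
  obtain ⟨S₀, hS₀S, hS₀card⟩ := exists_subset_card_eq hcard
  have hS₀ne : S₀.Nonempty := by rw [← card_pos, hS₀card]; exact hm
  obtain ⟨u₁, hu₁⟩ := hS₀ne
  have hu₁S := hS₀S hu₁
  have hpc : (p : ℤ) ∣ c := (dvd_pow_self (p : ℤ) (by omega : r ≠ 0)).trans hc
  set tc : ℤ := t₁ + c * u₁ with htc
  have htc1 : tc ≡ t₁ [ZMOD p] := by
    rw [htc, Int.modEq_iff_dvd]
    exact ⟨-(c / p * u₁), by obtain ⟨e, he⟩ := hpc; rw [he, Int.mul_ediv_cancel_left _
      (by exact_mod_cast hp.out.ne_zero)]; ring⟩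
  set F := shiftP p G tc with hF
  have hF0 : F.evalEval 0 ((x u₁ : ℤ) : ℤ_[p]) = 0 := by
    have := shiftP_evalEval p G tc 0 (x u₁)
    simp only [Int.cast_zero, add_zero] at this
    rw [hF, this, htc, hx u₁ hu₁S, Int.cast_zero]
  have hFc : IsUnit ((derivative F).evalEval 0 ((x u₁ : ℤ) : ℤ_[p])) := by
    have := shiftP_evalEval p (derivative G) tc 0 (x u₁)
    simp only [Int.cast_zero, add_zero] at this
    rw [hF, derivative_shiftP, this, isUnit_intCast_iff]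
    refine hsimple tc (x u₁) htc1 ?_
    rw [htc, hx u₁ hu₁S]
    exact dvd_zero _
  obtain ⟨Q, hQ0, hQdeg, hQdvd⟩ := exists_formal_root F _ hF0 hFc (m - 1)
  rw [Nat.sub_add_cancel hm] at hQdvd
  -- the approximation at every node
  have happ : ∀ u ∈ S, ((p : ℤ_[p]) ^ (r * m)) ∣
      ((x u : ℤ) : ℤ_[p]) - Q.eval (((c * (u - u₁) : ℤ)) : ℤ_[p]) := by
    intro u hu
    have hz : ¬ IsUnit (((c * (u - u₁) : ℤ)) : ℤ_[p]) := by
      rw [isUnit_intCast_iff, not_not]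
      exact hpc.mul_right _
    have hroot : F.evalEval (((c * (u - u₁) : ℤ)) : ℤ_[p]) ((x u : ℤ) : ℤ_[p]) = 0 := by
      rw [hF, shiftP_evalEval]
      have e : tc + c * (u - u₁) = t₁ + c * u := by rw [htc]; ring
      rw [e, hx u hu, Int.cast_zero]
    have hξ : ¬ IsUnit (((x u : ℤ) : ℤ_[p]) - Q.coeff 0) := by
      rw [hQ0, ← Int.cast_sub, isUnit_intCast_iff, not_not]
      exact (Int.modEq_iff_dvd.mp (hbranch u₁ hu₁S u hu))
    have hc' : IsUnit ((derivative F).evalEval 0 (Q.coeff 0)) := by rw [hQ0]; exact hFc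
    have h1 := dvd_sub_eval_of_formal_root F Q m hQdvd hc' _ _ hz hroot hξ
    refine dvd_trans ?_ h1
    rw [pow_mul]
    apply pow_dvd_pow_of_dvd
    obtain ⟨e, he⟩ := hc
    refine ⟨((e * (u - u₁) : ℤ) : ℤ_[p]), ?_⟩
    rw [he]
    push_cast
    ring
  -- the p-adic polynomial in the variable `u`
  set Qt : ℤ_[p][X] := Q.comp (C ((c : ℤ) : ℤ_[p]) * (X - C ((u₁ : ℤ) : ℤ_[p]))) with hQt
  have hQt_eval : ∀ u : ℤ, Qt.eval ((u : ℤ) : ℤ_[p]) = Q.eval (((c * (u - u₁) : ℤ)) : ℤ_[p]) := by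
    intro u
    rw [hQt, eval_comp]
    congr 1
    simp
  have hQt_deg : Qt.natDegree ≤ m - 1 := by
    rw [hQt]
    refine natDegree_comp_le.trans ?_
    have h1 : (C ((c : ℤ) : ℤ_[p]) * (X - C ((u₁ : ℤ) : ℤ_[p]))).natDegree ≤ 1 :=
      (natDegree_C_mul_le _ _).trans (natDegree_X_sub_C_le _)
    calc Q.natDegree * (C ((c : ℤ) : ℤ_[p]) * (X - C ((u₁ : ℤ) : ℤ_[p]))).natDegree
        ≤ (m - 1) * 1 := Nat.mul_le_mul hQdeg h1
      _ = m - 1 := mul_one _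
  set q : ℚ_[p][X] := Qt.map PadicInt.Coe.ringHom with hq
  have hq_deg : q.degree < #S₀ := by
    rw [hS₀card]
    refine lt_of_le_of_lt degree_le_natDegree ?_
    have : q.natDegree ≤ m - 1 := natDegree_map_le.trans hQt_deg
    exact_mod_cast (by omega : q.natDegree < m)
  have hq_eval : ∀ u : ℤ, q.eval ((u : ℤ) : ℚ_[p]) = ((Qt.eval ((u : ℤ) : ℤ_[p]) : ℤ_[p]) : ℚ_[p]) := by
    intro u
    rw [hq, eval_map]
    have e : ((u : ℤ) : ℚ_[p]) = PadicInt.Coe.ringHom ((u : ℤ) : ℤ_[p]) := rfl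
    rw [e, eval₂_at_apply]
    rfl
  -- all defects vanish
  have hE : ∀ k ∈ S, lagE S₀ x k = 0 := by
    intro k hk
    have hdvd : ((p : ℤ) ^ (r * m)) ∣ lagE S₀ x k := by
      rw [← PadicInt.pow_p_dvd_int_iff]
      -- compute in `ℤ_[p]`
      have key : ((lagE S₀ x k : ℤ) : ℤ_[p]) = (lagL S₀ : ℤ_[p]) * ((x k : ℤ_[p]) - Qt.eval ((k : ℤ) : ℤ_[p]))
          - ∑ i ∈ S₀, ((x i : ℤ_[p]) - Qt.eval ((i : ℤ) : ℤ_[p])) * (lagCoef S₀ i k : ℤ_[p]) := by
        apply Subtype.coe_injective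
        show (((lagE S₀ x k : ℤ) : ℤ_[p]) : ℚ_[p]) = _
        have h := lagE_cast_eq (F := ℚ_[p]) S₀ x k q hq_deg
        rw [PadicInt.coe_intCast, h]
        simp only [hq_eval]
        rw [PadicInt.coe_sub, PadicInt.coe_mul, PadicInt.coe_sum]
        push_cast
        rfl
      rw [key]
      refine dvd_sub (Dvd.dvd.mul_left ?_ _) (dvd_sum fun i hi => Dvd.dvd.mul_right ?_ _)
      · rw [hQt_eval]; exact happ k hk
      · rw [hQt_eval]; exact happ i (hS₀S hi)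
    apply Int.eq_zero_of_abs_lt_dvd hdvd
    refine lt_of_le_of_lt (abs_lagE_le S₀ W (fun j hj => hS j (hS₀S hj)) x B₀ (hS k hk)
      (hB k hk) (fun i hi => hB i (hS₀S hi))) ?_
    rw [hS₀card]
    exact hbig
  obtain ⟨P, hPdeg, hP⟩ := exists_poly_of_lagE_eq_zero S₀ S x hE
  exact ⟨P, by rwa [hS₀card] at hPdeg, hP⟩

end Fermat.Agent.S52.HIT48
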