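/-
S52, brick (C1) (helper48): Hilbert irreducibility, rational-root version, p-adic proof.
Part 4: the monic integral theorem.  `G ∈ ℤ[t][x]` monic in `x` with a Bezout witness
`U G + V G' = D(t) ≠ 0` and no root in `ℚ[t]`: every arithmetic progression contains arbitrarily
large `k` such that `G(k, ·)` has no integer root.
-/
import Mathlib
import Fermat.Agent.S52.HIT48.Core

set_option autoImplicit false

open Polynomial Finset

namespace Fermat.Agent.S52.HIT48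

/-- Cauchy bound for integer roots of monic integer polynomials. -/
theorem abs_root_le_of_monic (f : ℤ[X]) (hf : f.Monic) (x : ℤ) (hx : f.eval x = 0) :
    |x| ≤ 1 + ∑ i ∈ range f.natDegree, |f.coeff i| := by
  set n := f.natDegree with hn
  set A := ∑ i ∈ range n, |f.coeff i| with hA
  by_contra hlt
  rw [not_le] at hlt
  have hA0 : 0 ≤ A := sum_nonneg fun i _ => abs_nonneg _
  have h1 : 1 ≤ |x| := by linarith
  rw [eval_eq_sum_range, sum_range_succ, ← hn] at hx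
  have hlc : f.coeff n = 1 := hf.coeff_natDegree
  rw [hlc, one_mul] at hx
  have hxn : x ^ n = - ∑ i ∈ range n, f.coeff i * x ^ i := by linarith
  have h2 : |x| ^ n ≤ A * |x| ^ (n - 1) := by
    rw [← abs_pow, hxn, abs_neg]
    refine (abs_sum_le_sum_abs _ _).trans ?_
    rw [hA, sum_mul]
    refine sum_le_sum fun i hi => ?_
    rw [abs_mul, abs_pow]
    refine mul_le_mul_of_nonneg_left ?_ (abs_nonneg _)
    exact pow_le_pow_right₀ h1 (by have := mem_range.mp hi; omega)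
  rcases Nat.eq_zero_or_pos n with h0 | hpos
  · rw [h0] at hx
    simp at hx
  · have e : |x| ^ n = |x| * |x| ^ (n - 1) := by
      rw [← pow_succ']
      congr 1
      omega
    rw [e] at h2
    have hpos' : 0 < |x| ^ (n - 1) := pow_pos (by linarith) _
    have := le_of_mul_le_mul_right h2 hpos'
    linarith

/-- Bound for the values of an integer polynomial. -/
theorem abs_eval_le_of_natDegree_le (q : ℤ[X]) (d : ℕ) (hd : q.natDegree ≤ d) (t T : ℤ)
    (ht : |t| ≤ T) (hT : 1 ≤ T) :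
    |q.eval t| ≤ (∑ j ∈ range (d + 1), |q.coeff j|) * T ^ d := by
  rw [eval_eq_sum_range' (Nat.lt_succ_of_le hd), sum_mul]
  refine (abs_sum_le_sum_abs _ _).trans (sum_le_sum fun j hj => ?_)
  rw [abs_mul, abs_pow]
  refine mul_le_mul_of_nonneg_left ?_ (abs_nonneg _)
  calc |t| ^ j ≤ T ^ j := pow_le_pow_left₀ (abs_nonneg _) ht j
    _ ≤ T ^ d := pow_le_pow_right₀ hT (by have := mem_range.mp hj; omega)

/-- A bound for the inner degrees of all coefficients. -/
noncomputable def cdeg (G : ℤ[X][X]) : ℕ := G.support.sup fun i => (G.coeff i).natDegree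

theorem natDegree_coeff_le_cdeg (G : ℤ[X][X]) (i : ℕ) : (G.coeff i).natDegree ≤ cdeg G := by
  by_cases h : i ∈ G.support
  · exact Finset.le_sup (f := fun i => (G.coeff i).natDegree) h
  · rw [notMem_support_iff.mp h]
    simp

/-- The sum of the absolute values of all lower coefficients. -/
noncomputable def cH (G : ℤ[X][X]) : ℤ :=
  ∑ i ∈ range G.natDegree, ∑ j ∈ range (cdeg G + 1), |(G.coeff i).coeff j|

theorem cH_nonneg (G : ℤ[X][X]) : 0 ≤ cH G :=
  sum_nonneg fun _ _ => sum_nonneg fun _ _ => abs_nonneg _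

theorem root_bound (G : ℤ[X][X]) (hG : G.Monic) (t T x : ℤ) (ht : |t| ≤ T) (hT : 1 ≤ T)
    (hx : G.evalEval t x = 0) : |x| ≤ 1 + cH G * T ^ cdeg G := by
  set f : ℤ[X] := G.map (evalRingHom t) with hf
  have hfm : f.Monic := hG.map _
  have hfn : f.natDegree = G.natDegree := hG.natDegree_map _
  have hfx : f.eval x = 0 := by rw [hf, ← evalEval_eq_eval_map]; exact hx
  refine (abs_root_le_of_monic f hfm x hfx).trans ?_
  rw [hfn, cH, sum_mul]
  have key : ∑ i ∈ range G.natDegree, |f.coeff i| ≤ ∑ i ∈ range G.natDegree,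
      (∑ j ∈ range (cdeg G + 1), |(G.coeff i).coeff j|) * T ^ cdeg G := by
    refine sum_le_sum fun i _ => ?_
    rw [hf, coeff_map, coe_evalRingHom]
    exact abs_eval_le_of_natDegree_le _ _ (natDegree_coeff_le_cdeg G i) t T ht hT
  linarith

/-- Degree bound for the value of a bivariate polynomial at a polynomial. -/
theorem natDegree_eval_le {K : Type*} [Field K] (F : K[X][X]) (d n e : ℕ)
    (hd : ∀ i, (F.coeff i).natDegree ≤ d) (hn : F.natDegree ≤ n) (P : K[X])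
    (hP : P.natDegree ≤ e) : (F.eval P).natDegree ≤ d + n * e := by
  rw [eval_eq_sum_range]
  refine natDegree_sum_le_of_forall_le _ _ fun i hi => ?_
  refine natDegree_mul_le.trans ?_
  have h1 := hd i
  have h2 : (P ^ i).natDegree ≤ n * e := by
    refine natDegree_pow_le.trans ?_
    have : i ≤ n := (Nat.lt_succ_iff.mp (mem_range.mp hi)).trans hn
    exact Nat.mul_le_mul this hP
  omega

/-- Undoing an affine substitution in the inner variable. -/
theorem root_of_shift_root (F : ℚ[X][X]) (t₁ c : ℚ) (hc : c ≠ 0) (P : ℚ[X])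
    (h : (F.map (compRingHom (C t₁ + C c * X))).eval P = 0) :
    F.eval (P.comp (C c⁻¹ * (X - C t₁))) = 0 := by
  set q : ℚ[X] := C t₁ + C c * X with hq
  set q' : ℚ[X] := C c⁻¹ * (X - C t₁) with hq'
  have hqq : q.comp q' = X := by
    rw [hq, hq']
    simp only [add_comp, C_comp, mul_comp, X_comp]
    rw [← mul_assoc, ← C_mul, mul_inv_cancel₀ hc, C_1, one_mul]
    ring
  have hcomp : (compRingHom q').comp (compRingHom q) = RingHom.id ℚ[X] := by
    refine Polynomial.ringHom_ext (fun a => by simp) ?_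
    simp only [RingHom.comp_apply, coe_compRingHom_apply, X_comp, RingHom.id_apply]
    exact hqq
  have h1 := congrArg (compRingHom q') h
  rw [map_zero] at h1
  have h2 : (compRingHom q') ((F.map (compRingHom q)).eval P) =
      ((F.map (compRingHom q)).map (compRingHom q')).eval ((compRingHom q') P) := by
    have := Polynomial.hom_eval₂ (F.map (compRingHom q)) (RingHom.id _) (compRingHom q') P
    rw [RingHom.comp_id] at this
    conv_rhs => rw [eval_map]
    exact this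
  rw [Polynomial.map_map, hcomp, Polynomial.map_id] at h2
  rw [h2] at h1
  exact h1

/-- An arithmetic progression contains arbitrarily large non-roots of a nonzero polynomial. -/
theorem exists_large_nonroot (D : ℤ[X]) (hD : D ≠ 0) (a M : ℤ) (hM : M ≠ 0) (B : ℤ) :
    ∃ t₁ : ℤ, B ≤ t₁ ∧ t₁ ≡ a [ZMOD M] ∧ D.eval t₁ ≠ 0 := by
  set f : ℕ → ℤ := fun j => a + M * (M * (((B - a).natAbs : ℤ) + j)) with hf
  have hinj : Function.Injective f := by
    intro i j hij
    simp only [hf] at hij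
    have h1 := mul_left_cancel₀ hM (add_left_cancel hij)
    have h2 := mul_left_cancel₀ hM h1
    exact_mod_cast add_left_cancel h2
  by_contra hcon
  push Not at hcon
  have hall : ∀ j : ℕ, f j ∈ {x | D.IsRoot x} := by
    intro j
    refine hcon (f j) ?_ ?_
    · simp only [hf]
      have h1 : 1 ≤ M * M := by
        have : 0 < M * M := mul_self_pos.mpr hM
        omega
      have h2 : (0 : ℤ) ≤ ((B - a).natAbs : ℤ) + j := by positivity
      have h3 : B - a ≤ ((B - a).natAbs : ℤ) := Int.le_natAbs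
      have h4 : ((B - a).natAbs : ℤ) + j ≤ M * M * (((B - a).natAbs : ℤ) + j) :=
        le_mul_of_one_le_left h2 h1
      have h5 : (0 : ℤ) ≤ (j : ℤ) := by positivity
      have e : M * (M * (((B - a).natAbs : ℤ) + j)) = M * M * (((B - a).natAbs : ℤ) + j) := by ring
      rw [e]
      linarith
    · simp only [hf]
      rw [Int.modEq_iff_dvd]
      exact ⟨-(M * (((B - a).natAbs : ℤ) + j)), by ring⟩
  exact hD (Polynomial.eq_zero_of_infinite_isRoot D (Set.infinite_of_injective_forall_mem hinj hall))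

theorem abs_shift_le (t₁ pr MM u W : ℤ) (hpr : 1 ≤ pr) (hMM : 0 ≤ MM) (hu0 : 0 ≤ u)
    (huW : u ≤ W) : |t₁ + pr * MM * u| ≤ pr * (|t₁| + MM * W) := by
  have h1 : (0 : ℤ) ≤ |t₁| := abs_nonneg _
  have h2 : 0 ≤ pr * MM := mul_nonneg (by linarith) hMM
  have h3 : pr * MM * u ≤ pr * MM * W := mul_le_mul_of_nonneg_left huW h2
  have h4 : |t₁| ≤ pr * |t₁| := le_mul_of_one_le_left h1 hpr
  have h5 : |pr * MM * u| = pr * MM * u := abs_of_nonneg (mul_nonneg h2 hu0)
  calc |t₁ + pr * MM * u| ≤ |t₁| + |pr * MM * u| := abs_add_le _ _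
    _ = |t₁| + pr * MM * u := by rw [h5]
    _ ≤ pr * |t₁| + pr * MM * W := add_le_add h4 h3
    _ = pr * (|t₁| + MM * W) := by ring

/-- The algebraic endgame: an interpolating polynomial through sufficiently many roots is a root
of `G` over `ℚ[t]`. -/
theorem false_of_interpolation (G : ℤ[X][X])
    (hroot : ∀ P : ℚ[X], (G.map (mapRingHom (Int.castRingHom ℚ))).eval P ≠ 0)
    (t₁ c : ℤ) (hc : c ≠ 0) (S : Finset ℤ) (x : ℤ → ℤ)
    (hx : ∀ u ∈ S, G.evalEval (t₁ + c * u) (x u) = 0)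
    (P : ℚ[X]) (d : ℕ) (hPd : P.natDegree ≤ d) (hP : ∀ u ∈ S, P.eval ((u : ℤ) : ℚ) = x u)
    (hcard : cdeg G + G.natDegree * d < #S) : False := by
  set Gq : ℚ[X][X] := G.map (mapRingHom (Int.castRingHom ℚ)) with hGq
  set q : ℚ[X] := C (t₁ : ℚ) + C (c : ℚ) * X with hq
  set Gs : ℚ[X][X] := Gq.map (compRingHom q) with hGs
  set R : ℚ[X] := Gs.eval P with hR
  have hq1 : q.natDegree ≤ 1 := by
    rw [hq]
    refine (natDegree_add_le _ _).trans (max_le (by simp) ?_)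
    exact (natDegree_C_mul_le _ _).trans natDegree_X_le
  have hRdeg : R.natDegree ≤ cdeg G + G.natDegree * d := by
    refine natDegree_eval_le Gs (cdeg G) G.natDegree d (fun i => ?_) ?_ P hPd
    · rw [hGs, coeff_map, hGq, coeff_map, coe_compRingHom_apply, coe_mapRingHom]
      refine natDegree_comp_le.trans ?_
      calc ((G.coeff i).map (Int.castRingHom ℚ)).natDegree * q.natDegree
          ≤ cdeg G * 1 :=
            Nat.mul_le_mul (natDegree_map_le.trans (natDegree_coeff_le_cdeg G i)) hq1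
        _ = cdeg G := mul_one _
    · exact natDegree_map_le.trans natDegree_map_le
  have hReval : ∀ u ∈ S, R.eval ((u : ℤ) : ℚ) = 0 := by
    intro u hu
    rw [hR, eval_eval_eq_eval_map, ← evalEval_eq_eval_map, hGs, evalEval_map_compRingHom, hP u hu]
    have e : q.eval ((u : ℤ) : ℚ) = ((t₁ + c * u : ℤ) : ℚ) := by
      rw [hq]; simp
    rw [e, hGq]
    have h := map_mapRingHom_evalEval (Int.castRingHom ℚ) G (t₁ + c * u) (x u)
    simp only [Int.coe_castRingHom] at h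
    rw [h, hx u hu, Int.cast_zero]
  have hR0 : R = 0 := by
    refine eq_zero_of_natDegree_lt_card_of_eval_eq_zero' R (S.image (Int.cast : ℤ → ℚ)) ?_ ?_
    · intro z hz
      obtain ⟨u, hu, rfl⟩ := Finset.mem_image.mp hz
      exact hReval u hu
    · rw [Finset.card_image_of_injective _ Int.cast_injective]
      omega
  have hcq : (c : ℚ) ≠ 0 := by exact_mod_cast hc
  exact hroot _ (root_of_shift_root Gq (t₁ : ℚ) (c : ℚ) hcq P hR0)

/-- The window argument. -/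
theorem hit_window (p : ℕ) [hp : Fact p.Prime] (G : ℤ[X][X]) (hG : G.Monic)
    (hroot : ∀ P : ℚ[X], (G.map (mapRingHom (Int.castRingHom ℚ))).eval P ≠ 0)
    (t₁ MM : ℤ) (hMM : 1 ≤ MM)
    (hsimple : ∀ t x : ℤ, t ≡ t₁ [ZMOD p] → (p : ℤ) ∣ G.evalEval t x →
      ¬ (p : ℤ) ∣ (derivative G).evalEval t x) :
    ∃ r : ℕ, 1 ≤ r ∧ ∃ u : ℤ, 0 ≤ u ∧ ∀ x : ℤ, G.evalEval (t₁ + (p : ℤ) ^ r * MM * u) x ≠ 0 := by
  have hp1 : (1 : ℤ) ≤ p := by exact_mod_cast hp.out.one_lt.le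
  have hp2 : (2 : ℤ) ≤ p := by exact_mod_cast hp.out.two_le
  have hp0 : (0 : ℤ) < p := by linarith
  obtain ⟨n, hn⟩ : ∃ n, n = G.natDegree := ⟨_, rfl⟩
  obtain ⟨d, hd⟩ : ∃ d, d = cdeg G := ⟨_, rfl⟩
  obtain ⟨N, hN⟩ : ∃ N, N = d + n * d + 1 := ⟨_, rfl⟩
  obtain ⟨W, hW⟩ : ∃ W : ℕ, W = p * N := ⟨_, rfl⟩
  have hW1 : (1 : ℤ) ≤ W := by
    have : 0 < W := by rw [hW]; exact Nat.mul_pos hp.out.pos (by omega)
    exact_mod_cast this
  obtain ⟨T₀, hT₀⟩ : ∃ T₀ : ℤ, T₀ = |t₁| + MM * W := ⟨_, rfl⟩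
  have hT₀1 : 1 ≤ T₀ := by
    have h1 : (0 : ℤ) ≤ |t₁| := abs_nonneg _
    have h2 : (1 : ℤ) ≤ MM * W := one_le_mul_of_one_le_of_one_le hMM hW1
    linarith
  obtain ⟨K₁, hK₁⟩ : ∃ K₁ : ℤ, K₁ = 1 + cH G * T₀ ^ d := ⟨_, rfl⟩
  obtain ⟨K, hK⟩ : ∃ K : ℤ, K = (W : ℤ) ^ ((d + 1) * d) * K₁ * ((d + 1 : ℕ) + 1) := ⟨_, rfl⟩
  obtain ⟨r, hr⟩ : ∃ r : ℕ, r = K.toNat + 1 := ⟨_, rfl⟩
  have hKr : K < (p : ℤ) ^ r := by
    have h1 : K ≤ (K.toNat : ℤ) := Int.self_le_toNat K
    have h2 : (K.toNat : ℤ) < (2 : ℤ) ^ K.toNat := by exact_mod_cast Nat.lt_two_pow_self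
    have h3 : (2 : ℤ) ^ K.toNat ≤ (p : ℤ) ^ K.toNat := pow_le_pow_left₀ (by norm_num) hp2 _
    have h4 : (p : ℤ) ^ K.toNat ≤ (p : ℤ) ^ r := pow_le_pow_right₀ hp1 (by omega)
    linarith
  have hpr1 : 1 ≤ (p : ℤ) ^ r := one_le_pow₀ hp1
  have hprd1 : 1 ≤ (p : ℤ) ^ (r * d) := one_le_pow₀ hp1
  obtain ⟨c, hc⟩ : ∃ c : ℤ, c = (p : ℤ) ^ r * MM := ⟨_, rfl⟩
  have hc0 : 0 < c := by rw [hc]; exact mul_pos (by linarith) (by linarith)
  refine ⟨r, by omega, ?_⟩
  rw [← hc]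
  by_contra hcon
  push Not at hcon
  choose! x hx using hcon
  -- pigeonhole
  have hmaps : ∀ u ∈ Finset.Ico (0 : ℤ) W, x u % (p : ℤ) ∈ Finset.Ico (0 : ℤ) p := by
    intro u _
    rw [Finset.mem_Ico]
    exact ⟨Int.emod_nonneg _ hp0.ne', Int.emod_lt_of_pos _ hp0⟩
  have hcards : #(Finset.Ico (0 : ℤ) p) * (N - 1) < #(Finset.Ico (0 : ℤ) W) := by
    rw [Int.card_Ico, Int.card_Ico]
    simp only [sub_zero, Int.toNat_natCast]
    rw [hW]
    exact Nat.mul_lt_mul_of_pos_left (by omega) hp.out.pos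
  obtain ⟨y, _, hy⟩ := Finset.exists_lt_card_fiber_of_mul_lt_card_of_maps_to hmaps hcards
  obtain ⟨S, hS⟩ : ∃ S : Finset ℤ, S = {u ∈ Finset.Ico (0 : ℤ) W | x u % (p : ℤ) = y} := ⟨_, rfl⟩
  rw [← hS] at hy
  have hSmem : ∀ u ∈ S, (0 ≤ u ∧ u < W) ∧ x u % (p : ℤ) = y := by
    intro u hu
    rw [hS, Finset.mem_filter, Finset.mem_Ico] at hu
    exact hu
  have hScard : N ≤ #S := by omega
  have hxS : ∀ u ∈ S, G.evalEval (t₁ + c * u) (x u) = 0 := fun u hu => hx u (hSmem u hu).1.1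
  -- bound for the roots
  have hB : ∀ u ∈ S, |x u| ≤ (p : ℤ) ^ (r * d) * K₁ := by
    intro u hu
    obtain ⟨⟨hu0, huW⟩, _⟩ := hSmem u hu
    have hT : |t₁ + c * u| ≤ (p : ℤ) ^ r * T₀ := by
      rw [hc, hT₀]
      exact abs_shift_le t₁ _ MM u W hpr1 (by linarith) hu0 huW.le
    have hT1 : 1 ≤ (p : ℤ) ^ r * T₀ := one_le_mul_of_one_le_of_one_le hpr1 hT₀1
    have h := root_bound G hG (t₁ + c * u) _ (x u) hT hT1 (hxS u hu)
    refine h.trans ?_
    rw [hK₁, mul_pow, ← pow_mul, ← hd]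
    have h3 : 0 ≤ cH G * T₀ ^ d := mul_nonneg (cH_nonneg G) (by positivity)
    have e : cH G * ((p : ℤ) ^ (r * d) * T₀ ^ d) = (p : ℤ) ^ (r * d) * (cH G * T₀ ^ d) := by ring
    rw [e, mul_add, mul_one]
    linarith
  have hbig : ((W : ℕ) : ℤ) ^ ((d + 1) * (d + 1 - 1)) * ((p : ℤ) ^ (r * d) * K₁) * ((d + 1 : ℕ) + 1)
      < (p : ℤ) ^ (r * (d + 1)) := by
    have e1 : ((W : ℕ) : ℤ) ^ ((d + 1) * (d + 1 - 1)) * ((p : ℤ) ^ (r * d) * K₁) * ((d + 1 : ℕ) + 1)
        = (p : ℤ) ^ (r * d) * K := by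
      rw [hK, Nat.add_sub_cancel]; ring
    have e2 : (p : ℤ) ^ (r * (d + 1)) = (p : ℤ) ^ (r * d) * (p : ℤ) ^ r := by
      rw [Nat.mul_add, mul_one, pow_add]
    rw [e1, e2]
    exact mul_lt_mul_of_pos_left hKr (by linarith)
  obtain ⟨P, hPdeg, hP⟩ := core p G t₁ c r (d + 1) (by omega) (by omega)
    (by rw [hc]; exact Dvd.intro _ rfl) hsimple S W
    (fun u hu => ⟨(hSmem u hu).1.1, (hSmem u hu).1.2.le⟩) (by omega) x hxS
    (fun u hu u' hu' => by
      show x u % (p : ℤ) = x u' % (p : ℤ)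
      rw [(hSmem u hu).2, (hSmem u' hu').2])
    _ hB hbig
  have hPnat : P.natDegree ≤ d := by
    by_cases hP0 : P = 0
    · rw [hP0]; simp
    · have := (natDegree_lt_iff_degree_lt hP0).mpr hPdeg
      omega
  exact false_of_interpolation G hroot t₁ c hc0.ne' S x hxS P d hPnat hP (by rw [← hd, ← hn]; omega)

/-- **Hilbert irreducibility, root version, monic integral case.** -/
theorem hit_monic (G : ℤ[X][X]) (hG : G.Monic)
    (U V : ℤ[X][X]) (D : ℤ[X]) (hD : D ≠ 0) (hbez : U * G + V * derivative G = C D)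
    (hroot : ∀ P : ℚ[X], (G.map (mapRingHom (Int.castRingHom ℚ))).eval P ≠ 0)
    (a M : ℤ) (hM : M ≠ 0) (B : ℤ) :
    ∃ k : ℤ, B ≤ k ∧ k ≡ a [ZMOD M] ∧ D.eval k ≠ 0 ∧ ∀ x : ℤ, G.evalEval k x ≠ 0 := by
  obtain ⟨t₁, ht₁B, ht₁a, hDt₁⟩ := exists_large_nonroot D hD a M hM B
  -- the prime
  obtain ⟨p, hpge, hp⟩ := Nat.exists_infinite_primes ((M * D.eval t₁).natAbs + 1)
  have hpF : Fact p.Prime := ⟨hp⟩
  have hp1 : (1 : ℤ) ≤ p := by exact_mod_cast hp.one_lt.le
  have hpnd : ¬ (p : ℤ) ∣ M * D.eval t₁ := by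
    intro h
    have h0 : M * D.eval t₁ ≠ 0 := mul_ne_zero hM hDt₁
    have h1 : p ∣ (M * D.eval t₁).natAbs := by
      have := Int.natAbs_dvd_natAbs.mpr h
      simpa using this
    have h2 := Nat.le_of_dvd (Int.natAbs_pos.mpr h0) h1
    omega
  have hsimple : ∀ t x : ℤ, t ≡ t₁ [ZMOD p] → (p : ℤ) ∣ G.evalEval t x →
      ¬ (p : ℤ) ∣ (derivative G).evalEval t x := by
    intro t x ht h1 h2
    have e := congrArg (fun F => F.evalEval t x) hbez
    simp only [evalEval_add, evalEval_mul, evalEval_C] at e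
    have h3 : (p : ℤ) ∣ D.eval t := by rw [← e]; exact dvd_add (h1.mul_left _) (h2.mul_left _)
    have h4 : (p : ℤ) ∣ D.eval t - D.eval t₁ :=
      (Int.modEq_iff_dvd.mp ht.symm).trans (sub_dvd_eval_sub t t₁ D)
    have h5 : (p : ℤ) ∣ D.eval t₁ := by
      have := dvd_sub h3 h4
      simpa using this
    exact hpnd (h5.mul_left _)
  have hMM : 1 ≤ M * M := by
    have : 0 < M * M := mul_self_pos.mpr hM
    omega
  obtain ⟨r, hr, u, hu0, hux⟩ := hit_window p G hG hroot t₁ (M * M) hMM hsimple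
  have hpr0 : 0 ≤ (p : ℤ) ^ r := by positivity
  have hcu : 0 ≤ (p : ℤ) ^ r * (M * M) * u := mul_nonneg (mul_nonneg hpr0 (by linarith)) hu0
  refine ⟨t₁ + (p : ℤ) ^ r * (M * M) * u, by linarith, ?_, ?_, hux⟩
  · refine Int.ModEq.trans ?_ ht₁a
    rw [Int.modEq_iff_dvd]
    exact ⟨-((p : ℤ) ^ r * M * u), by ring⟩
  · intro h0
    have hpc : (p : ℤ) ∣ (p : ℤ) ^ r * (M * M) * u :=
      ((dvd_pow_self (p : ℤ) (by omega : r ≠ 0)).mul_right _).mul_right _
    have h4 : (p : ℤ) ∣ D.eval (t₁ + (p : ℤ) ^ r * (M * M) * u) - D.eval t₁ := by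
      refine Dvd.dvd.trans ?_ (sub_dvd_eval_sub (t₁ + (p : ℤ) ^ r * (M * M) * u) t₁ D)
      have : t₁ + (p : ℤ) ^ r * (M * M) * u - t₁ = (p : ℤ) ^ r * (M * M) * u := by ring
      rw [this]
      exact hpc
    rw [h0, zero_sub, dvd_neg] at h4
    exact hpnd (h4.mul_left _)

end Fermat.Agent.S52.HIT48
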