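/-
S52, brick (C1) (helper48): Hilbert irreducibility, rational-root version, p-adic proof.
Part 5: the general theorem for `G ∈ ℚ[t][x]`, separable over `ℚ(t)` and without roots in `ℚ(t)`.
-/
import Mathlib
import Fermat.Agent.S52.HIT48.Main

set_option autoImplicit false

open Polynomial Finset

namespace Fermat.Agent.S52.HIT48

section ClearDenoms

/-- Clearing denominators coefficientwise. -/
theorem clear_denoms_poly {A B : Type*} [CommRing A] [IsDomain A] [CommRing B] (φ : A →+* B)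
    (hφ : ∀ b : B, ∃ e : A, e ≠ 0 ∧ ∃ a : A, φ a = φ e * b) (q : B[X]) :
    ∃ e : A, e ≠ 0 ∧ ∃ a : A[X], a.map φ = C (φ e) * q := by
  induction q using Polynomial.induction_on' with
  | add p q hp hq =>
    obtain ⟨e₁, he₁, a₁, h₁⟩ := hp
    obtain ⟨e₂, he₂, a₂, h₂⟩ := hq
    refine ⟨e₁ * e₂, mul_ne_zero he₁ he₂, C e₂ * a₁ + C e₁ * a₂, ?_⟩
    rw [Polynomial.map_add, Polynomial.map_mul, Polynomial.map_mul, h₁, h₂, map_C, map_C,
      map_mul, C_mul]
    ring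
  | monomial n b =>
    obtain ⟨e, he, a, h⟩ := hφ b
    refine ⟨e, he, monomial n a, ?_⟩
    rw [map_monomial, h, C_mul_monomial]

theorem clear_denoms_int (b : ℚ) :
    ∃ e : ℤ, e ≠ 0 ∧ ∃ a : ℤ, (Int.castRingHom ℚ) a = (Int.castRingHom ℚ) e * b :=
  ⟨b.den, by exact_mod_cast b.den_ne_zero, b.num, by
    simp only [eq_intCast, Int.cast_natCast]
    rw [mul_comm]
    exact (Rat.mul_den_eq_num b).symm⟩

/-- The coefficient embedding `ℤ[t] → ℚ[t]`. -/
noncomputable abbrev φ₁ : ℤ[X] →+* ℚ[X] := mapRingHom (Int.castRingHom ℚ)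

theorem φ₁_injective : Function.Injective φ₁ := by
  rw [coe_mapRingHom]
  exact Polynomial.map_injective _ Int.cast_injective

theorem clear_denoms_φ₁ (b : ℚ[X]) : ∃ e : ℤ[X], e ≠ 0 ∧ ∃ a : ℤ[X], φ₁ a = φ₁ e * b := by
  obtain ⟨e, he, a, h⟩ := clear_denoms_poly (Int.castRingHom ℚ) clear_denoms_int b
  refine ⟨C e, by simpa using he, a, ?_⟩
  rw [coe_mapRingHom, h, map_C]

/-- The embedding `ℤ[t] → ℚ(t)`. -/
noncomputable abbrev ψ : ℤ[X] →+* RatFunc ℚ := (algebraMap ℚ[X] (RatFunc ℚ)).comp φ₁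

theorem ψ_injective : Function.Injective ψ :=
  (IsFractionRing.injective ℚ[X] (RatFunc ℚ)).comp φ₁_injective

theorem clear_denoms_ψ (b : RatFunc ℚ) : ∃ e : ℤ[X], e ≠ 0 ∧ ∃ a : ℤ[X], ψ a = ψ e * b := by
  obtain ⟨p, q, hq, rfl⟩ := IsFractionRing.div_surjective (A := ℚ[X]) b
  have hq0 : q ≠ 0 := nonZeroDivisors.ne_zero hq
  obtain ⟨e₁, he₁, p₁, hp₁⟩ := clear_denoms_φ₁ p
  obtain ⟨e₂, he₂, q₁, hq₁⟩ := clear_denoms_φ₁ q
  have hq₁0 : q₁ ≠ 0 := by
    intro h0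
    rw [h0, map_zero] at hq₁
    have : φ₁ e₂ ≠ 0 := fun h => he₂ (φ₁_injective (by rw [h, map_zero]))
    exact (mul_ne_zero this hq0) hq₁.symm
  refine ⟨e₁ * q₁, mul_ne_zero he₁ hq₁0, e₂ * p₁, ?_⟩
  have hqK : algebraMap ℚ[X] (RatFunc ℚ) q ≠ 0 := by
    intro h
    exact hq0 ((IsFractionRing.injective ℚ[X] (RatFunc ℚ)) (by rw [h, map_zero]))
  simp only [RingHom.comp_apply, map_mul, hp₁, hq₁]
  field_simp

end ClearDenoms

/-- A Bezout witness over `ℤ[t]` from separability over `ℚ(t)`. -/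
theorem exists_bezout_of_separable (F : ℤ[X][X]) (hF : (F.map ψ).Separable) :
    ∃ (U V : ℤ[X][X]) (D : ℤ[X]), D ≠ 0 ∧ U * F + V * derivative F = C D := by
  obtain ⟨a, b, hab⟩ := hF
  obtain ⟨e₁, he₁, a₁, ha₁⟩ := clear_denoms_poly ψ clear_denoms_ψ a
  obtain ⟨e₂, he₂, b₁, hb₁⟩ := clear_denoms_poly ψ clear_denoms_ψ b
  refine ⟨C e₂ * a₁, C e₁ * b₁, e₁ * e₂, mul_ne_zero he₁ he₂, ?_⟩
  apply Polynomial.map_injective ψ ψ_injective
  rw [Polynomial.map_add, Polynomial.map_mul, Polynomial.map_mul, Polynomial.map_mul,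
    Polynomial.map_mul, ha₁, hb₁, map_C, map_C, map_C, map_mul, C_mul]
  rw [derivative_map] at hab
  linear_combination (C (ψ e₁) * C (ψ e₂)) * hab

/-- Separability is insensitive to a linear scaling of the variable. -/
theorem separable_of_comp_C_mul_X {K : Type*} [Field K] (f : K[X]) (a : K) (ha : a ≠ 0)
    (h : (f.comp (C a * X)).Separable) : f.Separable := by
  have hq : (C a * X : K[X]).comp (C a⁻¹ * X) = X := by
    rw [mul_comp, C_comp, X_comp, ← mul_assoc, ← C_mul, mul_inv_cancel₀ ha, C_1, one_mul]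
  obtain ⟨u, v, huv⟩ := h
  refine ⟨u.comp (C a⁻¹ * X), v.comp (C a⁻¹ * X) * C a, ?_⟩
  have h1 := congrArg (fun p => p.comp (C a⁻¹ * X)) huv
  simp only [add_comp, mul_comp, one_comp] at h1
  rw [derivative_comp, mul_comp, comp_assoc, comp_assoc, hq, comp_X, comp_X] at h1
  have h2 : (derivative (C a * X : K[X])).comp (C a⁻¹ * X) = C a := by
    rw [derivative_C_mul, derivative_X, mul_one, C_comp]
  rw [h2] at h1
  rw [← h1]
  ring

/-- **Hilbert irreducibility, root version, general case.**  If `G ∈ ℚ[t][x]` of positive degree in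
`x` is separable over `ℚ(t)` and has no root in `ℚ(t)`, then every arithmetic progression contains
arbitrarily large integers `k` such that `G(k, x)` has no rational root. -/
theorem exists_int_no_rat_root (G : ℚ[X][X]) (hdeg : 0 < G.natDegree)
    (hsep : (G.map (algebraMap ℚ[X] (RatFunc ℚ))).Separable)
    (hroot : ∀ r : RatFunc ℚ, (G.map (algebraMap ℚ[X] (RatFunc ℚ))).eval r ≠ 0)
    (a M : ℤ) (hM : M ≠ 0) (B : ℤ) :
    ∃ k : ℤ, B ≤ k ∧ k ≡ a [ZMOD M] ∧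
      ∀ x : ℚ, (G.map (evalRingHom (k : ℚ))).eval x ≠ 0 := by
  -- Step 1: clear denominators
  obtain ⟨e₀, he₀, G₁, hG₁⟩ := clear_denoms_poly φ₁ clear_denoms_φ₁ G
  have hφe₀ : φ₁ e₀ ≠ 0 := fun h => he₀ (φ₁_injective (by rw [h, map_zero]))
  have hψe₀ : ψ e₀ ≠ 0 := fun h => he₀ (ψ_injective (by rw [h, map_zero]))
  have hG₁K : G₁.map ψ = C (ψ e₀) * G.map (algebraMap ℚ[X] (RatFunc ℚ)) := by
    have := congrArg (Polynomial.map (algebraMap ℚ[X] (RatFunc ℚ))) hG₁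
    rw [Polynomial.map_map, Polynomial.map_mul, map_C] at this
    exact this
  have hn : G₁.natDegree = G.natDegree := by
    rw [← natDegree_map_eq_of_injective φ₁_injective G₁, hG₁, natDegree_C_mul hφe₀]
  have hn1 : 1 ≤ G₁.natDegree := by omega
  have hG₁0 : G₁ ≠ 0 := by
    intro h
    rw [h] at hn1
    simp at hn1
  -- Step 2: the monic normalisation
  obtain ⟨ℓ, hℓ⟩ : ∃ ℓ, ℓ = G₁.leadingCoeff := ⟨_, rfl⟩
  have hℓ0 : ℓ ≠ 0 := by rw [hℓ]; exact leadingCoeff_ne_zero.mpr hG₁0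
  have hψℓ : ψ ℓ ≠ 0 := fun h => hℓ0 (ψ_injective (by rw [h, map_zero]))
  obtain ⟨Gt, hGt⟩ : ∃ Gt, Gt = integralNormalization G₁ := ⟨_, rfl⟩
  have hGtm : Gt.Monic := by rw [hGt]; exact monic_integralNormalization hG₁0
  have hkey : ∀ {S : Type} [CommRing S] (f : ℤ[X] →+* S) (x : S),
      Gt.eval₂ f (f ℓ * x) = f ℓ ^ (G₁.natDegree - 1) * G₁.eval₂ f x := by
    intro S _ f x
    rw [hGt, hℓ]
    exact integralNormalization_eval₂_leadingCoeff_mul hn1 f x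
  have hsepGt : (Gt.map ψ).Separable := by
    apply separable_of_comp_C_mul_X (Gt.map ψ) (ψ ℓ) hψℓ
    have h1 := hkey (C.comp ψ) (X : (RatFunc ℚ)[X])
    have e1 : ∀ (p : ℤ[X][X]) (y : (RatFunc ℚ)[X]), p.eval₂ (C.comp ψ) y = (p.map ψ).comp y := by
      intro p y
      rw [comp, eval₂_map]
    rw [e1, e1, comp_X] at h1
    have h1' : (Gt.map ψ).comp (C (ψ ℓ) * X) = C (ψ ℓ) ^ (G₁.natDegree - 1) * G₁.map ψ := h1
    rw [h1', hG₁K, ← map_pow, ← mul_assoc, ← C_mul]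
    exact Separable.unit_mul
      (isUnit_C.mpr (IsUnit.mk0 _ (mul_ne_zero (pow_ne_zero _ hψℓ) hψe₀))) hsep
  obtain ⟨U, V, D, hD, hbez⟩ := exists_bezout_of_separable Gt hsepGt
  have hrootGt : ∀ P : ℚ[X], (Gt.map (mapRingHom (Int.castRingHom ℚ))).eval P ≠ 0 := by
    intro P hP
    rw [eval_map] at hP
    have h1 : Gt.eval₂ ψ (algebraMap ℚ[X] (RatFunc ℚ) P) = 0 := by
      have := Polynomial.hom_eval₂ Gt φ₁ (algebraMap ℚ[X] (RatFunc ℚ)) P
      rw [hP, map_zero] at this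
      exact this.symm
    have h2 := hkey ψ (algebraMap ℚ[X] (RatFunc ℚ) P / ψ ℓ)
    rw [mul_div_cancel₀ _ hψℓ, h1] at h2
    have h3 : G₁.eval₂ ψ (algebraMap ℚ[X] (RatFunc ℚ) P / ψ ℓ) = 0 := by
      rcases mul_eq_zero.mp h2.symm with h | h
      · exact absurd h (pow_ne_zero _ hψℓ)
      · exact h
    rw [← eval_map, hG₁K, eval_mul, eval_C] at h3
    rcases mul_eq_zero.mp h3 with h | h
    · exact hψe₀ h
    · exact hroot _ h
  obtain ⟨k, hkB, hka, _, hk⟩ := hit_monic Gt hGtm U V D hD hbez hrootGt a M hM B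
  refine ⟨k, hkB, hka, ?_⟩
  intro x hx
  obtain ⟨fk, hfk⟩ : ∃ fk : ℤ[X] →+* ℚ, fk = (Int.castRingHom ℚ).comp (evalRingHom k) := ⟨_, rfl⟩
  have hfk' : (evalRingHom (k : ℚ)).comp φ₁ = fk := by
    rw [hfk]
    refine Polynomial.ringHom_ext (fun n => by simp) (by simp)
  have h1 : G₁.eval₂ fk x = 0 := by
    have := congrArg (Polynomial.map (evalRingHom (k : ℚ))) hG₁
    rw [Polynomial.map_map, hfk', Polynomial.map_mul, map_C] at this
    rw [← eval_map, this, eval_mul, hx, mul_zero]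
  have h2 : Gt.eval₂ fk (fk ℓ * x) = 0 := by rw [hkey fk x, h1, mul_zero]
  obtain ⟨g, hg⟩ : ∃ g : ℤ[X], g = Gt.map (evalRingHom k) := ⟨_, rfl⟩
  have hgm : g.Monic := by rw [hg]; exact hGtm.map _
  have h3 : aeval (fk ℓ * x) g = 0 := by
    rw [aeval_def, hg, eval₂_map, RingHom.ext_int (algebraMap ℤ ℚ) (Int.castRingHom ℚ), ← hfk]
    exact h2
  obtain ⟨z, hz⟩ := isInteger_of_is_root_of_monic hgm h3
  have h4 : g.eval z = 0 := by
    have h5 : ((g.eval z : ℤ) : ℚ) = 0 := by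
      rw [← hz, aeval_algebraMap_apply] at h3
      simpa using h3
    exact_mod_cast h5
  exact hk z (by rw [evalEval_eq_eval_map, ← hg]; exact h4)

end Fermat.Agent.S52.HIT48
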